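import Fermat.Agent.S36R.Bridge.Finite
import Fermat.Agent.GAL.RED.CurveBasic

/-!
# S36 route R, BRIDGE (abstract part): assembly

* `chart_RR` : `Inj.Chart π W c (RR O c)` from `O ⊆ W i`, `c ∈ W i` and saturation;
* `map_mem_RR` : functoriality of `RR`;
* `mem_range_of_mem_RR_inter` : over an algebraically closed constant field, an element integral over
  `K[c]` and over `K[c⁻¹]` is a constant.
-/

set_option autoImplicit false
set_option linter.unusedSectionVars false
set_option linter.style.haveILetI false

namespace Fermat.Agent.S36R.Bridge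

open Polynomial IntermediateField AlgebraicCurve

section Chart

variable {O : Type*} [CommRing O] [IsDomain O] {F : Type*} [Field F] [Algebra O F]
variable (K0 : Type*) [Field K0] [Algebra O K0] [IsFractionRing O K0] [Algebra K0 F]
  [IsScalarTower O K0 F]

theorem isIntegrallyClosed_adjoin [IsIntegrallyClosed O] {c : F} (hc : Transcendental O c) :
    IsIntegrallyClosed (Algebra.adjoin O {c}) := by
  have e : O[X] ≃ₐ[O] (aeval c : O[X] →ₐ[O] F).range :=
    AlgEquiv.ofInjective _ (transcendental_iff_injective.mp hc)
  exact IsIntegrallyClosed.of_equiv (e.trans (Subalgebra.equivOfEq _ _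
    (Algebra.adjoin_singleton_eq_range_aeval O c).symm)).toRingEquiv

include K0 in
theorem transcendental_of_fractionRing {c : F} (hc : Transcendental K0 c) : Transcendental O c :=
  hc.restrictScalars (IsFractionRing.injective O K0)

/-- **the integral closure of `O[c]` is a chart**, given saturation. -/
theorem chart_RR {ι : Type*} (π : O) (W : ι → ValuationSubring F) (c : F) [CharZero F]
    [IsIntegrallyClosed O] (hc : Transcendental K0 c) [FiniteDimensional K0⟮c⟯ F]
    (hWO : ∀ (a : O) i, algebraMap O F a ∈ W i) (hWc : ∀ i, c ∈ W i)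
    (hsat : ∀ z : F, algebraMap O F π * z ∈ RR O c → (∀ i, z ∈ W i) → z ∈ RR O c) :
    Inj.Chart π W c (RR O c) := by
  haveI := isIntegrallyClosed_adjoin (transcendental_of_fractionRing (O := O) K0 hc)
  obtain ⟨h1, h2⟩ := frac_finite_RR (O := O) K0 c
  exact
    { algebraMap_mem := algebraMap_mem_RR c
      c_mem := self_mem_RR c
      root_closed := root_closed_RR
      frac := h1
      finite := h2
      le_W := fun i z hz => RR_le_valuationSubring (W i) (fun a => hWO a i) (hWc i) hz
      sat := hsat }

end Chart

section Map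

variable {O : Type*} [CommRing O] {F : Type*} [Field F] [Algebra O F]
variable {O' : Type*} [CommRing O'] {F' : Type*} [Field F'] [Algebra O' F']

theorem map_mem_adjoin (φ : F →+* F') {c : F} {c' : F'}
    (hO : ∀ a : O, φ (algebraMap O F a) ∈ Algebra.adjoin O' {c'})
    (hc : φ c ∈ Algebra.adjoin O' {c'}) {x : F} (hx : x ∈ Algebra.adjoin O {c}) :
    φ x ∈ Algebra.adjoin O' {c'} := by
  induction hx using Algebra.adjoin_induction with
  | mem x hx => rw [Set.mem_singleton_iff] at hx; rw [hx]; exact hc
  | algebraMap a => exact hO a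
  | add x y _ _ hx hy => rw [map_add]; exact add_mem hx hy
  | mul x y _ _ hx hy => rw [map_mul]; exact mul_mem hx hy

/-- functoriality of `RR`. -/
theorem map_mem_RR (φ : F →+* F') {c : F} {c' : F'}
    (hO : ∀ a : O, φ (algebraMap O F a) ∈ Algebra.adjoin O' {c'})
    (hc : φ c ∈ Algebra.adjoin O' {c'}) {z : F} (hz : z ∈ RR O c) : φ z ∈ RR O' c' := by
  obtain ⟨P, hP, hcoe, hPz⟩ := exists_monic_of_mem_RR hz
  refine mem_RR_of_monic (P := P.map φ) (hP.map φ) (fun i => ?_) ?_
  · rw [Polynomial.coeff_map]
    exact map_mem_adjoin φ hO hc (hcoe i)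
  · rw [Polynomial.eval_map_apply, hPz, map_zero]

end Map

section Const

variable {K F : Type*} [Field K] [Field F] [Algebra K F] [Lib.RR.IsFF K F] [IsAlgClosed K]

/-- an element integral over `K[c]` and over `K[c⁻¹]` has no pole, so it is a constant. -/
theorem mem_range_of_mem_RR_inter {c z : F} (h0 : z ∈ RR K c) (h1 : z ∈ RR K c⁻¹) :
    z ∈ Set.range (algebraMap K F) := by
  apply GAL.RED.mem_range_of_ord_nonneg
  intro P
  apply S24.ord_nonneg_of_mem
  rcases P.toValuationSubring.mem_or_inv_mem c with h | h
  · exact RR_le_valuationSubring _ (fun a => P.algebraMap_mem' a) h h0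
  · exact RR_le_valuationSubring _ (fun a => P.algebraMap_mem' a) h h1

end Const

end Fermat.Agent.S36R.Bridge
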