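import Fermat.Agent.S36R.Inj.RootMod

/-!
# S36 route R, BRIDGE (abstract part): the integral closure of `O[c]` is a chart

`RR O c` : the integral closure of `O[c]` in the field `F`, as a subring of `F`.

* `chart_RR` : all fields of `Inj.Chart π W c (RR O c)` except `sat`, which is a hypothesis;
* `shift_RR` : `z ∈ RR O c → ∃ k, c⁻¹ ^ k * z ∈ RR O c⁻¹`.
-/

set_option autoImplicit false

namespace Fermat.Agent.S36R.Bridge

open Polynomial

variable (O : Type*) [CommRing O] {F : Type*} [Field F] [Algebra O F]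

/-- The integral closure of `O[c]` in `F`. -/
def RR (c : F) : Subring F := (integralClosure (Algebra.adjoin O {c}) F).toSubring

variable {O}

theorem mem_RR {c z : F} : z ∈ RR O c ↔ IsIntegral (Algebra.adjoin O {c}) z := Iff.rfl

theorem adjoin_le_RR {c z : F} (hz : z ∈ Algebra.adjoin O {c}) : z ∈ RR O c :=
  mem_RR.mpr (isIntegral_algebraMap (R := Algebra.adjoin O {c}) (x := ⟨z, hz⟩))

theorem algebraMap_mem_RR (c : F) (a : O) : algebraMap O F a ∈ RR O c :=
  adjoin_le_RR (Subalgebra.algebraMap_mem _ a)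

theorem self_mem_RR (c : F) : c ∈ RR O c :=
  adjoin_le_RR (Algebra.subset_adjoin (Set.mem_singleton c))

theorem root_closed_RR {c : F} (z : F) (m : ℕ) (hm : 0 < m) (h : z ^ m ∈ RR O c) : z ∈ RR O c :=
  mem_RR.mpr (IsIntegral.of_pow hm (mem_RR.mp h))

/-- a root of a monic polynomial whose coefficients lie in the range of `φ` is integral. -/
theorem isIntegralElem_of_coeff {S : Type*} [CommRing S] (φ : S →+* F) {Q : F[X]} (hQ : Q.Monic)
    (hc : ∀ i, Q.coeff i ∈ Set.range φ) {w : F} (hw : Q.eval w = 0) : φ.IsIntegralElem w := by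
  obtain ⟨q, hq, -, hqm⟩ :=
    Polynomial.lifts_and_natDegree_eq_and_monic ((Polynomial.lifts_iff_coeff_lifts _).mpr hc) hQ
  exact ⟨q, hqm, by rw [← Polynomial.eval_map, hq, hw]⟩

/-- an element of `RR O c` is a root of a monic polynomial with coefficients in `O[c]`. -/
theorem exists_monic_of_mem_RR {c z : F} (hz : z ∈ RR O c) :
    ∃ P : F[X], P.Monic ∧ (∀ i, P.coeff i ∈ Algebra.adjoin O {c}) ∧ P.eval z = 0 := by
  obtain ⟨p, hp, hpz⟩ := mem_RR.mp hz
  refine ⟨p.map (algebraMap _ F), hp.map _, fun i => ?_, ?_⟩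
  · rw [Polynomial.coeff_map]
    exact (p.coeff i).2
  · rw [Polynomial.eval_map]; exact hpz

theorem mem_RR_of_monic {c z : F} {P : F[X]} (hP : P.Monic)
    (hc : ∀ i, P.coeff i ∈ Algebra.adjoin O {c}) (hz : P.eval z = 0) : z ∈ RR O c :=
  mem_RR.mpr (isIntegralElem_of_coeff (algebraMap (Algebra.adjoin O {c}) F) hP
    (fun i => ⟨⟨_, hc i⟩, rfl⟩) hz)

/-- `RR O c` is contained in every valuation ring containing `O` and `c`. -/
theorem RR_le_valuationSubring {c : F} (V : ValuationSubring F)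
    (hO : ∀ a : O, algebraMap O F a ∈ V) (hc : c ∈ V) {z : F} (hz : z ∈ RR O c) : z ∈ V := by
  obtain ⟨P, hP, hcoe, hPz⟩ := exists_monic_of_mem_RR hz
  have hle : ∀ x ∈ Algebra.adjoin O {c}, x ∈ V := by
    intro x hx
    induction hx using Algebra.adjoin_induction with
    | mem x hx => rw [Set.mem_singleton_iff] at hx; rw [hx]; exact hc
    | algebraMap a => exact hO a
    | add x y _ _ hx hy => exact add_mem hx hy
    | mul x y _ _ hx hy => exact mul_mem hx hy
  have hint : IsIntegral V z :=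
    isIntegralElem_of_coeff (algebraMap V F) hP (fun i => ⟨⟨_, hle _ (hcoe i)⟩, rfl⟩) hPz
  obtain ⟨y, hy⟩ := (IsIntegrallyClosed.isIntegral_iff (R := V) (K := F)).mp hint
  rw [← hy]
  exact y.2

/-- clearing the positive powers of `c`. -/
theorem exists_shift_adjoin {c : F} (hc : c ≠ 0) {x : F} (hx : x ∈ Algebra.adjoin O {c}) :
    ∃ k : ℕ, ∀ K, k ≤ K → c⁻¹ ^ K * x ∈ Algebra.adjoin O {c⁻¹} := by
  have hci : c⁻¹ ∈ Algebra.adjoin O {c⁻¹} := Algebra.subset_adjoin (Set.mem_singleton _)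
  induction hx using Algebra.adjoin_induction with
  | mem x hx =>
    rw [Set.mem_singleton_iff] at hx
    subst hx
    refine ⟨1, fun K hK => ?_⟩
    obtain ⟨K', rfl⟩ := Nat.exists_eq_add_of_le hK
    rw [add_comm, pow_succ, mul_assoc, inv_mul_cancel₀ hc, mul_one]
    exact pow_mem hci _
  | algebraMap a => exact ⟨0, fun K _ => mul_mem (pow_mem hci _) (Subalgebra.algebraMap_mem _ a)⟩
  | add x y _ _ hx hy =>
    obtain ⟨k, hk⟩ := hx
    obtain ⟨l, hl⟩ := hy
    refine ⟨max k l, fun K hK => ?_⟩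
    rw [mul_add]
    exact add_mem (hk K (le_trans (le_max_left _ _) hK)) (hl K (le_trans (le_max_right _ _) hK))
  | mul x y _ _ hx hy =>
    obtain ⟨k, hk⟩ := hx
    obtain ⟨l, hl⟩ := hy
    refine ⟨k + l, fun K hK => ?_⟩
    obtain ⟨K', rfl⟩ := Nat.exists_eq_add_of_le hK
    have h1 := mul_mem (hk (k + K') (Nat.le_add_right _ _)) (hl l le_rfl)
    have h2 : c⁻¹ ^ (k + l + K') * (x * y) = c⁻¹ ^ (k + K') * x * (c⁻¹ ^ l * y) := by
      rw [show k + l + K' = (k + K') + l by ring, pow_add]; ring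
    rw [h2]; exact h1

/-- **the shift between the two charts.** -/
theorem shift_RR {c : F} (hc : c ≠ 0) {z : F} (hz : z ∈ RR O c) :
    ∃ k : ℕ, c⁻¹ ^ k * z ∈ RR O c⁻¹ := by
  classical
  obtain ⟨P, hP, hcoe, hPz⟩ := exists_monic_of_mem_RR hz
  choose κ hκ using fun i => exists_shift_adjoin hc (hcoe i)
  set k := (Finset.range (P.natDegree + 1)).sup κ with hk
  refine ⟨k, mem_RR_of_monic (P := P.scaleRoots (c⁻¹ ^ k)) ((monic_scaleRoots_iff _).mpr hP) ?_ ?_⟩
  · intro i
    rw [coeff_scaleRoots]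
    rcases lt_trichotomy i P.natDegree with hi | hi | hi
    · rw [← pow_mul, mul_comm]
      apply hκ i
      have h1 : κ i ≤ k := Finset.le_sup (f := κ) (Finset.mem_range.mpr (by omega))
      calc κ i ≤ k := h1
        _ = k * 1 := (mul_one k).symm
        _ ≤ k * (P.natDegree - i) := Nat.mul_le_mul_left _ (by omega)
    · subst hi
      rw [Nat.sub_self, pow_zero, mul_one, hP.coeff_natDegree]
      exact one_mem _
    · rw [Polynomial.coeff_eq_zero_of_natDegree_lt hi, zero_mul]
      exact zero_mem _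
  · have h1 : aeval z P = 0 := by rw [Polynomial.coe_aeval_eq_eval]; exact hPz
    have h2 := scaleRoots_aeval_eq_zero (r := c⁻¹ ^ k) h1
    rw [Polynomial.coe_aeval_eq_eval] at h2
    exact h2

end Fermat.Agent.S36R.Bridge
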