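import Fermat.Agent.S36R.Bridge.Abs
import Fermat.Agent.S36R.K0.Fixed
import Fermat.Agent.GAL.Tors.Dict.Gen
import Fermat.Agent.GAL.Igusa.Level
import Fermat.Agent.GAL.Tors.Desc.IsFF

/-!
# S36 route R, BRIDGE (concrete part)

Everything is stated for an ABSTRACT field `K : Type` of characteristic `0` (instance search on
`↥(K0 A)` is very slow: specialise `K := ↥(K0 A)`, `O := O0 A`, `ι := algebraMap (K0 A) Kbar` only in the
final file), `O : ValuationSubring K`, `F = FF K N`, `c = j = Tors.Dict.jF K N`.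

* `FF_eq_fullC`, `transcendental_jF`, `finiteDimensional_jF` for every `K`;
* `chart_j`, `chart_j_inv` : `Inj.Chart π W j^{±1} (RR O j^{±1})` from `O ⊆ W i`, `j^{±1} ∈ W i`, saturation;
* `shift_j`, `shift_j_inv` : the hypotheses `sh₀`, `sh₁` of `Inj.inj_reg`;
* `exists_const_of_mem_RR_inter` : `RR O j ∩ RR O j⁻¹` consists of constants;
* `kv_eq_zero_of_mem_RR` : the conclusion of `Inj.inj_reg` kills the class of `f` in
  `KV Kbar (FF Kbar N) m`.
-/

set_option autoImplicit false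
set_option linter.unusedSectionVars false
set_option linter.style.haveILetI false

namespace Fermat.Agent.S36R.Bridge

open Polynomial IntermediateField AlgebraicCurve ModularCurve Fermat.Agent.GAL Fermat.Agent.S24
  Fermat.Agent.GAL.Desc

noncomputable section

variable (K : Type) [Field K] [Algebra ℚ K] (N : ℕ) [NeZero N]

/-- The two descriptions of the function field over `K` agree. -/
theorem FF_eq_fullC : FF K N = modularFunctionFieldFullC K N := by
  rw [Tors.Dict.FF_eq_adjoin, modularFunctionFieldFullC]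
  congr 1
  ext x
  constructor
  · rintro ⟨d, hd, hdM, rfl⟩
    refine ⟨d, hd, hdM, ?_⟩
    rw [Tors.Dict.coeffEmb_qExpand, coeffEmb, ← jqModC_rat, coeffMap_jqModC]
  · rintro ⟨d, hd, hdM, rfl⟩
    refine ⟨d, hd, hdM, ?_⟩
    rw [Tors.Dict.coeffEmb_qExpand, coeffEmb, ← jqModC_rat, coeffMap_jqModC]

theorem coe_jF : ((Tors.Dict.jF K N : FF K N) : LaurentSeries K) = jqModC K := by
  show coeffEmb K jq = _
  rw [coeffEmb, ← jqModC_rat, coeffMap_jqModC]

theorem fd_congr {L Ω : Type*} [Field L] [Field Ω] [Algebra L Ω] {E₁ E₂ : IntermediateField L Ω}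
    (h : E₁ = E₂) (x₁ : E₁) (x₂ : E₂) (hx : (x₁ : Ω) = x₂)
    (h1 : Transcendental L x₂) (h2 : FiniteDimensional L⟮x₂⟯ E₂) :
    Transcendental L x₁ ∧ FiniteDimensional L⟮x₁⟯ E₁ := by
  subst h
  obtain rfl : x₁ = x₂ := Subtype.ext hx
  exact ⟨h1, h2⟩

theorem natCast_ne_zero_K : ((N : ℕ) : K) ≠ 0 := by
  haveI : CharZero K := algebraRat.charZero K
  exact Nat.cast_ne_zero.mpr (NeZero.ne N)

theorem transcendental_jF : Transcendental K (Tors.Dict.jF K N) :=
  (fd_congr (FF_eq_fullC K N) (Tors.Dict.jF K N) (Igusa.jb K N) (coe_jF K N)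
    (Igusa.transcendental_jb K N) (Igusa.finiteDimensional_jb K N (natCast_ne_zero_K K N))).1

theorem finiteDimensional_jF : FiniteDimensional K⟮Tors.Dict.jF K N⟯ (FF K N) :=
  (fd_congr (FF_eq_fullC K N) (Tors.Dict.jF K N) (Igusa.jb K N) (coe_jF K N)
    (Igusa.transcendental_jb K N) (Igusa.finiteDimensional_jb K N (natCast_ne_zero_K K N))).2

theorem jF_ne_zero : Tors.Dict.jF K N ≠ 0 := fun h =>
  transcendental_jF K N (h ▸ isAlgebraic_zero)

variable {K} (O : ValuationSubring K)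

instance instTowerOFF : IsScalarTower O K (FF K N) := IsScalarTower.of_algebraMap_eq fun _ => rfl

variable {N O}

/-- the chart `j ≠ ∞`. -/
theorem chart_j {ι : Type*} (π : O) (W : ι → ValuationSubring (FF K N))
    (hWO : ∀ (a : O) i, algebraMap O (FF K N) a ∈ W i) (hWj : ∀ i, Tors.Dict.jF K N ∈ W i)
    (hsat : ∀ z : FF K N, algebraMap O (FF K N) π * z ∈ RR O (Tors.Dict.jF K N) → (∀ i, z ∈ W i) →
      z ∈ RR O (Tors.Dict.jF K N)) :
    Inj.Chart π W (Tors.Dict.jF K N) (RR O (Tors.Dict.jF K N)) := by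
  haveI : CharZero K := algebraRat.charZero K
  haveI := finiteDimensional_jF K N
  exact chart_RR K π W _ (transcendental_jF K N) hWO hWj hsat

/-- the chart `j ≠ 0`. -/
theorem chart_j_inv {ι : Type*} (π : O) (W : ι → ValuationSubring (FF K N))
    (hWO : ∀ (a : O) i, algebraMap O (FF K N) a ∈ W i) (hWj : ∀ i, (Tors.Dict.jF K N)⁻¹ ∈ W i)
    (hsat : ∀ z : FF K N, algebraMap O (FF K N) π * z ∈ RR O (Tors.Dict.jF K N)⁻¹ →
      (∀ i, z ∈ W i) → z ∈ RR O (Tors.Dict.jF K N)⁻¹) :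
    Inj.Chart π W (Tors.Dict.jF K N)⁻¹ (RR O (Tors.Dict.jF K N)⁻¹) := by
  haveI : CharZero K := algebraRat.charZero K
  haveI : FiniteDimensional K⟮(Tors.Dict.jF K N)⁻¹⟯ (FF K N) := by
    rw [S24.adjoin_inv_eq]
    exact finiteDimensional_jF K N
  exact chart_RR K π W _ (S24.transcendental_inv (transcendental_jF K N)) hWO hWj hsat

theorem shift_j {z : FF K N} (hz : z ∈ RR O (Tors.Dict.jF K N)) :
    ∃ k : ℕ, (Tors.Dict.jF K N)⁻¹ ^ k * z ∈ RR O (Tors.Dict.jF K N)⁻¹ :=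
  shift_RR (jF_ne_zero K N) hz

theorem shift_j_inv {z : FF K N} (hz : z ∈ RR O (Tors.Dict.jF K N)⁻¹) :
    ∃ k : ℕ, (Tors.Dict.jF K N) ^ k * z ∈ RR O (Tors.Dict.jF K N) := by
  have h := shift_RR (inv_ne_zero (jF_ne_zero K N)) hz
  rwa [inv_inv] at h

variable (ι : K →+* Kbar)

theorem bc_jF : bc ι (modularFunctionFieldFull N) (Tors.Dict.jF K N) = S24.jF N := by
  apply Subtype.ext
  rw [coe_bc]
  exact coeffMap_coeffEmb_hom ι jq

include ι in
/-- **`RR O j ∩ RR O j⁻¹` consists of constants.** -/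
theorem exists_const_of_mem_RR_inter {z : FF K N} (h0 : z ∈ RR O (Tors.Dict.jF K N))
    (h1 : z ∈ RR O (Tors.Dict.jF K N)⁻¹) : ∃ a : K, z = algebraMap K (FF K N) a := by
  haveI := isFF_FF_Kbar N
  have hO : ∀ (c' : FF Kbar N) (a : O), bc ι (modularFunctionFieldFull N)
      (algebraMap O (FF K N) a) ∈ Algebra.adjoin Kbar {c'} := by
    intro c' a
    rw [IsScalarTower.algebraMap_apply O K (FF K N), bc_algebraMap]
    exact Subalgebra.algebraMap_mem _ _
  have H0 : bc ι (modularFunctionFieldFull N) z ∈ RR Kbar (S24.jF N : FF Kbar N) :=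
    map_mem_RR _ (hO _) (by rw [bc_jF]; exact Algebra.subset_adjoin (Set.mem_singleton _)) h0
  have H1 : bc ι (modularFunctionFieldFull N) z ∈ RR Kbar (S24.jF N : FF Kbar N)⁻¹ :=
    map_mem_RR _ (hO _)
      (by rw [map_inv₀, bc_jF]; exact Algebra.subset_adjoin (Set.mem_singleton _)) h1
  obtain ⟨b, hb⟩ := mem_range_of_mem_RR_inter H0 H1
  refine ⟨(z : LaurentSeries K).coeff 0, ?_⟩
  apply bc_injective ι (modularFunctionFieldFull N)
  rw [bc_algebraMap, ← hb]
  congr 1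
  have h2 := congrArg (fun y : FF Kbar N => (y : LaurentSeries Kbar).coeff 0) hb
  simp only [coe_bc, coeffMap_coeff] at h2
  rw [← h2]
  show b = (algebraMap Kbar (LaurentSeries Kbar) b).coeff 0
  rw [algebraMap_laurentSeries_eq_single]
  exact (HahnSeries.coeff_single_same 0 b).symm

/-- A constant times an `m`-th power is trivial in `KV Kbar (FF Kbar N) m`. -/
theorem mk_bc_eq_zero {m : ℕ} (hm : m ≠ 0) (f : (FF K N)ˣ)
    (hf : Units.map (bc ι (modularFunctionFieldFull N) : FF K N →* FF Kbar N) f ∈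
      kummerUnits Kbar (FF Kbar N) m)
    (c : K) (h : FF K N) (hfc : (f : FF K N) = algebraMap K (FF K N) c * h ^ m) :
    KV.mk (⟨_, hf⟩ : kummerUnits Kbar (FF Kbar N) m) = 0 := by
  obtain ⟨b, hb⟩ := IsAlgClosed.exists_pow_nat_eq (ι c) (Nat.pos_of_ne_zero hm)
  have hf0 : (f : FF K N) ≠ 0 := f.ne_zero
  set y : FF Kbar N := algebraMap Kbar (FF Kbar N) b * bc ι (modularFunctionFieldFull N) h with hy
  have hym : y ^ m = bc ι (modularFunctionFieldFull N) (f : FF K N) := by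
    rw [hy, mul_pow, ← map_pow, hb, hfc, map_mul, bc_algebraMap, map_pow]
  have hy0 : y ≠ 0 := by
    intro h0
    rw [h0, zero_pow hm] at hym
    exact hf0 ((map_eq_zero (bc ι (modularFunctionFieldFull N))).mp hym.symm)
  rw [KV.mk_eq_zero_iff]
  exact ⟨Units.mk0 y hy0, Units.ext (by simpa using hym)⟩

/-- **END of the bridge**: the conclusion of `Inj.inj_reg` kills the class. -/
theorem kv_eq_zero_of_mem_RR {m : ℕ} (hm : m ≠ 0) (f : (FF K N)ˣ)
    (hf : Units.map (bc ι (modularFunctionFieldFull N) : FF K N →* FF Kbar N) f ∈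
      kummerUnits Kbar (FF Kbar N) m)
    (Φ : FF K N) (hΦ : Φ ≠ 0)
    (h0 : Φ ^ m * (f : FF K N)⁻¹ ∈ RR O (Tors.Dict.jF K N))
    (h1 : Φ ^ m * (f : FF K N)⁻¹ ∈ RR O (Tors.Dict.jF K N)⁻¹) :
    KV.mk (⟨_, hf⟩ : kummerUnits Kbar (FF Kbar N) m) = 0 := by
  obtain ⟨a, ha⟩ := exists_const_of_mem_RR_inter ι h0 h1
  have hf0 : (f : FF K N) ≠ 0 := f.ne_zero
  have ha0 : algebraMap K (FF K N) a ≠ 0 := by
    rw [← ha]
    exact mul_ne_zero (pow_ne_zero _ hΦ) (inv_ne_zero hf0)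
  refine mk_bc_eq_zero ι hm f hf a⁻¹ Φ ?_
  rw [map_inv₀, ← ha]
  field_simp

end

/-- the `O`-algebra structure of `FF K N` (what instance search finds for an abstract `K`). -/
noncomputable abbrev algOFF (K : Type) [Field K] [Algebra ℚ K] (O : ValuationSubring K) (N : ℕ) :
    Algebra O (FF K N) := inferInstance

/-- shortcut instance (instance search on `↥(K0 A)` times out). -/
noncomputable instance instAlgebraO0FF (A : ValuationSubring Kbar) (N : ℕ) :
    Algebra (O0 A) (FF (K0 A) N) := algOFF (K0 A) (O0 A) N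

/-- the specialisation to `K0 A`, `O0 A`, `bc0 A N`. -/
theorem kv_eq_zero_of_mem_RR₀ (A : ValuationSubring Kbar) (N : ℕ) [NeZero N] {m : ℕ} (hm : m ≠ 0)
    (f : (FF (K0 A) N)ˣ)
    (hf : Units.map (bc0 A N : FF (K0 A) N →* FF Kbar N) f ∈ kummerUnits Kbar (FF Kbar N) m)
    (Φ : FF (K0 A) N) (hΦ : Φ ≠ 0)
    (h0 : Φ ^ m * (f : FF (K0 A) N)⁻¹ ∈ RR (O0 A) (Tors.Dict.jF (K0 A) N))
    (h1 : Φ ^ m * (f : FF (K0 A) N)⁻¹ ∈ RR (O0 A) (Tors.Dict.jF (K0 A) N)⁻¹) :
    KV.mk (⟨_, hf⟩ : kummerUnits Kbar (FF Kbar N) m) = 0 :=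
  kv_eq_zero_of_mem_RR (O := O0 A) (algebraMap (K0 A) Kbar) hm f hf Φ hΦ h0 h1

end Fermat.Agent.S36R.Bridge
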