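import Fermat.Agent.S36R.Bridge.Chart

/-!
# S36 route R, BRIDGE (abstract part): `frac` and `finite` for the integral closure of `O[c]`
-/

set_option autoImplicit false
set_option linter.unusedSectionVars false
set_option linter.style.haveILetI false

namespace Fermat.Agent.S36R.Bridge

open Polynomial IntermediateField

variable {O : Type*} [CommRing O] [IsDomain O] {F : Type*} [Field F] [Algebra O F]
variable (K0 : Type*) [Field K0] [Algebra O K0] [IsFractionRing O K0] [Algebra K0 F]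
  [IsScalarTower O K0 F]

include K0 in
theorem algebraMap_ne_zero' {b : O} (hb : b ≠ 0) : algebraMap O F b ≠ 0 := by
  rw [IsScalarTower.algebraMap_apply O K0 F, Ne, map_eq_zero]
  exact (map_ne_zero_iff _ (IsFractionRing.injective O K0)).mpr hb

theorem exists_mul_aeval_mem (c : F) (r : K0[X]) :
    ∃ b : O, b ≠ 0 ∧ algebraMap O F b * aeval c r ∈ Algebra.adjoin O {c} := by
  obtain ⟨b, hb, e⟩ := IsLocalization.integerNormalization_spec (nonZeroDivisors O) r
  refine ⟨b, nonZeroDivisors.ne_zero hb, ?_⟩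
  have h1 : aeval c (b • r) = algebraMap O F b * aeval c r := by
    rw [← algebraMap_smul K0 b r, map_smul, Algebra.smul_def, ← IsScalarTower.algebraMap_apply]
  rw [← h1, ← e, aeval_map_algebraMap]
  exact aeval_mem_adjoin_singleton _ _

/-- every element of `K0(c)` is a quotient of elements of `O[c]`. -/
theorem exists_div_adjoin {c x : F} (hx : x ∈ K0⟮c⟯) :
    ∃ a ∈ Algebra.adjoin O {c}, ∃ d ∈ Algebra.adjoin O {c}, x = a / d := by
  obtain ⟨r, s, rfl⟩ := (mem_adjoin_simple_iff K0 x).mp hx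
  obtain ⟨b, hb, hbr⟩ := exists_mul_aeval_mem (O := O) K0 c r
  obtain ⟨b', hb', hbs⟩ := exists_mul_aeval_mem (O := O) K0 c s
  have h1 := algebraMap_ne_zero' (F := F) K0 hb
  have h2 := algebraMap_ne_zero' (F := F) K0 hb'
  refine ⟨_, mul_mem (Subalgebra.algebraMap_mem _ b') hbr, _,
    mul_mem (Subalgebra.algebraMap_mem _ b) hbs, ?_⟩
  by_cases hs : aeval c s = 0
  · rw [hs]; simp
  · field_simp

theorem adjoin_le_adjoin (c : F) {x : F} (hx : x ∈ Algebra.adjoin O {c}) : x ∈ K0⟮c⟯ := by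
  induction hx using Algebra.adjoin_induction with
  | mem x hx => rw [Set.mem_singleton_iff] at hx; rw [hx]; exact mem_adjoin_simple_self K0 c
  | algebraMap a =>
    rw [IsScalarTower.algebraMap_apply O K0 F]
    exact IntermediateField.algebraMap_mem _ _
  | add x y _ _ hx hy => exact add_mem hx hy
  | mul x y _ _ hx hy => exact mul_mem hx hy

/-- the inclusion `O[c] → K0(c)`. -/
def inclAdjoin (c : F) : Algebra.adjoin O {c} →+* K0⟮c⟯ where
  toFun x := ⟨x, adjoin_le_adjoin K0 c x.2⟩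
  map_one' := rfl
  map_mul' _ _ := rfl
  map_zero' := rfl
  map_add' _ _ := rfl

section

variable (c : F)

/-- `frac` and `finite`. -/
theorem frac_finite_RR [CharZero F] [IsIntegrallyClosed (Algebra.adjoin O {c})]
    [FiniteDimensional K0⟮c⟯ F] :
    (∀ z : F, ∃ b ∈ RR O c, b ≠ 0 ∧ b * z ∈ RR O c) ∧
    ∃ u : Finset F, ∀ z ∈ RR O c, z ∈ Submodule.span (Algebra.adjoin O {c}) (u : Set F) := by
  classical
  letI : Algebra (Algebra.adjoin O {c}) K0⟮c⟯ := (inclAdjoin K0 c).toAlgebra
  haveI : IsScalarTower (Algebra.adjoin O {c}) K0⟮c⟯ F := IsScalarTower.of_algebraMap_eq fun _ => rfl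
  haveI : FaithfulSMul (Algebra.adjoin O {c}) K0⟮c⟯ := by
    rw [faithfulSMul_iff_algebraMap_injective]
    intro x y h
    exact Subtype.ext (congrArg (fun t : K0⟮c⟯ => (t : F)) h)
  haveI : IsFractionRing (Algebra.adjoin O {c}) K0⟮c⟯ := by
    apply IsFractionRing.of_field
    intro z
    obtain ⟨a, ha, d, hd, e⟩ := exists_div_adjoin (O := O) K0 z.2
    exact ⟨⟨a, ha⟩, ⟨d, hd⟩, Subtype.ext e⟩
  haveI : CharZero K0⟮c⟯ := (algebraMap K0⟮c⟯ F).charZero
  constructor
  · intro z
    have hz : IsAlgebraic (Algebra.adjoin O {c}) z :=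
      (IsFractionRing.isAlgebraic_iff (Algebra.adjoin O {c}) K0⟮c⟯ F).mpr
        (Algebra.IsAlgebraic.isAlgebraic z)
    obtain ⟨y, hy, hint⟩ := hz.exists_integral_multiple
    refine ⟨(y : F), adjoin_le_RR y.2, fun h => hy (Subtype.ext h), ?_⟩
    exact mem_RR.mpr hint
  · obtain ⟨s, b, hb⟩ :=
      FiniteDimensional.exists_is_basis_integral (Algebra.adjoin O {c}) K0⟮c⟯ F
    have h := IsIntegralClosure.range_le_span_dualBasis
      (integralClosure (Algebra.adjoin O {c}) F) b hb
    refine ⟨Finset.univ.image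
      ((Algebra.traceForm K0⟮c⟯ F).dualBasis (traceForm_nondegenerate K0⟮c⟯ F) b), fun z hz => ?_⟩
    have h1 := h ⟨⟨z, hz⟩, rfl⟩
    rwa [Finset.coe_image, Finset.coe_univ, Set.image_univ]

end

end Fermat.Agent.S36R.Bridge
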